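import Mathlib

/-!
# ML / LIFT / Trace : a ring of traces acting on a Galois-stable subgroup  (abstract, Mathlib only)

`Γ` a group, `J` a `Γ`-module, `V ≤ J` a `Γ`-stable subgroup, `R` a commutative ring acting on `V`, generated by elements
`tr g` which act as `g + χ(g) g⁻¹`.

* `IsTraceRing V R tr χ`.
* `IsTraceRing.exists_common` **[TRANSPORT]** : for a `Γ`-stable subgroup `U` of ANY `Γ`-module `M` and equivariant maps
  `f i : M →+ J` with `f i U ≤ V`, every `s : R` is realised on `U` by ONE additive operator `φ` : `s • f i v = f i (φ v)`.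
* `mapSub` : `f U` as an `R`-submodule of `V`;  `ann_iff` : two injective equivariant maps have the same annihilators.
* `zOp g = g + g⁻¹ - 2`, `z_pow_smul`;  `boxG` : the box in Galois form.
-/

set_option autoImplicit false

namespace Fermat.Agent.ML.Lift

open Submodule

variable {Γ : Type*} [Group Γ]

section Ops

variable {M : Type*} [AddCommGroup M] [DistribMulAction Γ M]

/-- the action of `g` as an additive map -/
def gOp (g : Γ) : M →+ M := DistribSMul.toAddMonoidHom M g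

@[simp] theorem gOp_apply (g : Γ) (v : M) : gOp g v = g • v := rfl

/-- `g + n g⁻¹` -/
def tOp (n : ℤ) (g : Γ) : M →+ M := gOp g + n • gOp g⁻¹

theorem tOp_apply (n : ℤ) (g : Γ) (v : M) : tOp n g v = g • v + n • g⁻¹ • v := rfl

/-- `z(g) = g + g⁻¹ - 2` -/
def zOp (g : Γ) : M →+ M := gOp g + gOp g⁻¹ - 2 • AddMonoidHom.id M

theorem zOp_apply (g : Γ) (v : M) : zOp g v = g • v + g⁻¹ • v - 2 • v := rfl

variable {M' : Type*} [AddCommGroup M'] [DistribMulAction Γ M']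

theorem map_zOp (f : M →+ M') (hf : ∀ (g : Γ) v, f (g • v) = g • f v) (g : Γ) (v : M) :
    f (zOp g v) = zOp g (f v) := by
  rw [zOp_apply, zOp_apply, map_sub, map_add, hf, hf, map_nsmul]

theorem map_zOp_iterate (f : M →+ M') (hf : ∀ (g : Γ) v, f (g • v) = g • f v) (g : Γ) (n : ℕ)
    (v : M) : f ((zOp g)^[n] v) = (zOp g)^[n] (f v) := by
  induction n generalizing v with
  | zero => rfl
  | succ n ih => rw [Function.iterate_succ_apply, Function.iterate_succ_apply, ih, map_zOp f hf]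

theorem zOp_mem (U : AddSubgroup M) (hU : ∀ (g : Γ), ∀ v ∈ U, g • v ∈ U) (g : Γ) {v : M}
    (hv : v ∈ U) : zOp g v ∈ U :=
  U.sub_mem (U.add_mem (hU g v hv) (hU g⁻¹ v hv)) (U.nsmul_mem hv 2)

theorem zOp_iterate_mem (U : AddSubgroup M) (hU : ∀ (g : Γ), ∀ v ∈ U, g • v ∈ U) (g : Γ) (n : ℕ)
    {v : M} (hv : v ∈ U) : (zOp g)^[n] v ∈ U := by
  induction n generalizing v with
  | zero => exact hv
  | succ n ih => rw [Function.iterate_succ_apply]; exact ih (zOp_mem U hU g hv)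

/-- the box, in Galois form: `U[p^a, z(τ_i)^a]`. -/
def boxG (p a : ℕ) {t : ℕ} (τ : Fin t → Γ) (U : AddSubgroup M) : AddSubgroup M where
  carrier := {v | v ∈ U ∧ p ^ a • v = 0 ∧ ∀ i, (zOp (τ i))^[a] v = 0}
  zero_mem' := ⟨U.zero_mem, smul_zero _, fun i => iterate_map_zero _ _⟩
  add_mem' := by
    rintro v w ⟨h1, h2, h3⟩ ⟨h1', h2', h3'⟩
    refine ⟨U.add_mem h1 h1', by rw [smul_add, h2, h2', add_zero], fun i => ?_⟩
    rw [iterate_map_add, h3, h3', add_zero]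
  neg_mem' := by
    rintro v ⟨h1, h2, h3⟩
    refine ⟨U.neg_mem h1, by rw [smul_neg, h2, neg_zero], fun i => ?_⟩
    rw [iterate_map_neg, h3, neg_zero]

theorem mem_boxG {p a t : ℕ} {τ : Fin t → Γ} {U : AddSubgroup M} {v : M} :
    v ∈ boxG p a τ U ↔ v ∈ U ∧ p ^ a • v = 0 ∧ ∀ i, (zOp (τ i))^[a] v = 0 := Iff.rfl

theorem boxG_le {p a t : ℕ} (τ : Fin t → Γ) (U : AddSubgroup M) : boxG p a τ U ≤ U :=
  fun _ h => h.1

end Ops

variable {J : Type*} [AddCommGroup J] [DistribMulAction Γ J]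

/-- `R` is a ring of traces acting on the `Γ`-stable subgroup `V`. -/
structure IsTraceRing (V : AddSubgroup J) (R : Type*) [CommRing R] [Module R V] (tr : Γ → R)
    (χ : Γ → ℤ) : Prop where
  stable : ∀ (g : Γ), ∀ x ∈ V, g • x ∈ V
  gen : Algebra.adjoin ℤ (Set.range tr) = ⊤
  spec : ∀ (g : Γ) (x : V), ((tr g • x : V) : J) = g • (x : J) + χ g • g⁻¹ • (x : J)

namespace IsTraceRing

variable {V : AddSubgroup J} {R : Type*} [CommRing R] [Module R V] {tr : Γ → R} {χ : Γ → ℤ}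

section Transport

variable {M : Type*} [AddCommGroup M] [DistribMulAction Γ M]

/-- **[TRANSPORT]** -/
theorem exists_common (H : IsTraceRing V R tr χ) (U : AddSubgroup M)
    (hU : ∀ (g : Γ), ∀ v ∈ U, g • v ∈ U) {ι : Type*} (f : ι → M →+ J)
    (hf : ∀ i (g : Γ) v, f i (g • v) = g • f i v) (hfV : ∀ i, ∀ v ∈ U, f i v ∈ V) (s : R) :
    ∃ φ : M →+ M, (∀ v ∈ U, φ v ∈ U) ∧
      ∀ i v (hv : v ∈ U), ((s • (⟨f i v, hfV i v hv⟩ : V) : V) : J) = f i (φ v) := by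
  have hs : s ∈ Algebra.adjoin ℤ (Set.range tr) := by rw [H.gen]; trivial
  induction hs using Algebra.adjoin_induction with
  | mem s hs =>
    obtain ⟨g, rfl⟩ := hs
    refine ⟨tOp (χ g) g, fun v hv => ?_, fun i v hv => ?_⟩
    · exact U.add_mem (hU g v hv) (U.zsmul_mem (hU g⁻¹ v hv) _)
    · rw [H.spec, tOp_apply, map_add, map_zsmul, hf, hf]
  | algebraMap n =>
    refine ⟨n • AddMonoidHom.id M, fun v hv => U.zsmul_mem hv n, fun i v hv => ?_⟩
    rw [algebraMap_smul]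
    simp
  | add s₁ s₂ _ _ h₁ h₂ =>
    obtain ⟨φ₁, h₁, h₁'⟩ := h₁
    obtain ⟨φ₂, h₂, h₂'⟩ := h₂
    refine ⟨φ₁ + φ₂, fun v hv => U.add_mem (h₁ v hv) (h₂ v hv), fun i v hv => ?_⟩
    rw [add_smul, AddSubgroup.coe_add, h₁' i v hv, h₂' i v hv, AddMonoidHom.add_apply, map_add]
  | mul s₁ s₂ _ _ h₁ h₂ =>
    obtain ⟨φ₁, h₁, h₁'⟩ := h₁
    obtain ⟨φ₂, h₂, h₂'⟩ := h₂
    refine ⟨φ₁.comp φ₂, fun v hv => h₁ _ (h₂ v hv), fun i v hv => ?_⟩
    have e : s₂ • (⟨f i v, hfV i v hv⟩ : V) = ⟨f i (φ₂ v), hfV i _ (h₂ v hv)⟩ :=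
      Subtype.ext (h₂' i v hv)
    rw [mul_smul, e, h₁' i _ (h₂ v hv)]
    rfl

/-- `f U` as an `R`-submodule of `V`. -/
def mapSub (H : IsTraceRing V R tr χ) (U : AddSubgroup M) (hU : ∀ (g : Γ), ∀ v ∈ U, g • v ∈ U)
    (f : M →+ J) (hf : ∀ (g : Γ) v, f (g • v) = g • f v) (hfV : ∀ v ∈ U, f v ∈ V) :
    Submodule R V where
  carrier := {x | ∃ v ∈ U, f v = (x : J)}
  zero_mem' := ⟨0, U.zero_mem, by simp⟩
  add_mem' := by
    rintro x y ⟨v, hv, hx⟩ ⟨w, hw, hy⟩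
    exact ⟨v + w, U.add_mem hv hw, by rw [map_add, hx, hy]; rfl⟩
  smul_mem' := by
    rintro s x ⟨v, hv, hx⟩
    obtain ⟨φ, hφ, h⟩ := H.exists_common U hU (fun _ : Unit => f) (fun _ => hf) (fun _ => hfV) s
    refine ⟨φ v, hφ v hv, ?_⟩
    rw [← h () v hv]
    congr 2
    exact Subtype.ext hx

theorem mem_mapSub (H : IsTraceRing V R tr χ) {U : AddSubgroup M}
    {hU : ∀ (g : Γ), ∀ v ∈ U, g • v ∈ U} {f : M →+ J} {hf : ∀ (g : Γ) v, f (g • v) = g • f v}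
    {hfV : ∀ v ∈ U, f v ∈ V} {x : V} :
    x ∈ H.mapSub U hU f hf hfV ↔ ∃ v ∈ U, f v = (x : J) := Iff.rfl

/-- two equivariant maps which are injective on `U` have the same annihilators. -/
theorem ann_iff (H : IsTraceRing V R tr χ) (U : AddSubgroup M)
    (hU : ∀ (g : Γ), ∀ v ∈ U, g • v ∈ U) (f₁ f₂ : M →+ J)
    (hf₁ : ∀ (g : Γ) v, f₁ (g • v) = g • f₁ v) (hf₂ : ∀ (g : Γ) v, f₂ (g • v) = g • f₂ v)
    (hV₁ : ∀ v ∈ U, f₁ v ∈ V) (hV₂ : ∀ v ∈ U, f₂ v ∈ V)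
    (hi₁ : ∀ v ∈ U, f₁ v = 0 → v = 0) (hi₂ : ∀ v ∈ U, f₂ v = 0 → v = 0) (s : R) {v : M}
    (hv : v ∈ U) :
    s • (⟨f₁ v, hV₁ v hv⟩ : V) = 0 ↔ s • (⟨f₂ v, hV₂ v hv⟩ : V) = 0 := by
  obtain ⟨φ, hφ, h⟩ := H.exists_common U hU (fun b : Bool => if b then f₁ else f₂)
    (fun b g v => by cases b <;> simp [hf₁, hf₂]) (fun b v hv => by
      cases b
      · simpa using hV₂ v hv
      · simpa using hV₁ v hv) s
  have h1 : ((s • (⟨f₁ v, hV₁ v hv⟩ : V) : V) : J) = f₁ (φ v) := h true v hv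
  have h2 : ((s • (⟨f₂ v, hV₂ v hv⟩ : V) : V) : J) = f₂ (φ v) := h false v hv
  constructor
  · intro h0
    rw [h0] at h1
    have : φ v = 0 := hi₁ _ (hφ v hv) h1.symm
    refine Subtype.ext ?_
    rw [h2, this, map_zero]
    rfl
  · intro h0
    rw [h0] at h2
    have : φ v = 0 := hi₂ _ (hφ v hv) h2.symm
    refine Subtype.ext ?_
    rw [h1, this, map_zero]
    rfl

end Transport

/-- `tr g - n` acts as `g + χ(g) g⁻¹ - n`. -/
theorem tr_sub_smul (H : IsTraceRing V R tr χ) (g : Γ) (n : ℤ) (x : V) :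
    (((tr g - (n : R)) • x : V) : J) = g • (x : J) + χ g • g⁻¹ • (x : J) - n • (x : J) := by
  rw [sub_smul, AddSubgroup.coe_sub, H.spec, Int.cast_smul_eq_zsmul]
  rfl

/-- `z(g) = tr g - 2` acts as `g + g⁻¹ - 2` when `χ(g) = 1` on `V`. -/
theorem z_smul (H : IsTraceRing V R tr χ) {g : Γ} (hχ : ∀ x ∈ V, χ g • x = x) (x : V) :
    (((tr g - 2) • x : V) : J) = zOp g (x : J) := by
  have := H.tr_sub_smul g 2 x
  rw [hχ _ (H.stable g⁻¹ _ x.2)] at this
  rw [zOp_apply, ← natCast_zsmul]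
  simpa using this

theorem z_pow_smul (H : IsTraceRing V R tr χ) {g : Γ} (hχ : ∀ x ∈ V, χ g • x = x) (n : ℕ) (x : V) :
    (((tr g - 2) ^ n • x : V) : J) = (zOp g)^[n] (x : J) := by
  induction n generalizing x with
  | zero => rw [pow_zero, one_smul]; rfl
  | succ n ih => rw [pow_succ, mul_smul, ih, H.z_smul hχ, Function.iterate_succ_apply]

theorem natCast_smul (x : V) (n : ℕ) : (((n : R) • x : V) : J) = n • (x : J) := by
  rw [Nat.cast_smul_eq_nsmul]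
  rfl

end IsTraceRing

end Fermat.Agent.ML.Lift
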