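import Mathlib
import Fermat.Agent.ML.Lift.Trace
import Fermat.Agent.ML.Raise.StepS

/-!
# ML / LIFT / StepAbs : the raising step, ring-free STATE in, ring-free STATE out   (abstract)

`Γ` a group; `M` (`= J₀(N)`), `J` (`= J₀(N')`) `Γ`-modules; `V ≤ J` finite, `R` a trace ring on `V` (`IsTraceRing`).

STATE at the lower level : `U ≤ M` (`Γ`-stable, killed by `p^a`), `G ≤ boxG p a τ U` (`Γ`-stable, BIG).
STATE at the upper level : `G' = β' • boxG p a τ U'`.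

* `IsTraceRing.bx`, `card_bx`, `card_soc_bx` : the dictionary Galois form / `R`-submodules of `V`.
* `raise_step_abs`, `final_abs`, `big0_abs`.
-/

set_option autoImplicit false
set_option linter.unusedSectionVars false

namespace Fermat.Agent.ML.Lift

open Submodule Fermat.Agent.ML Fermat.Agent.ML.Raise

variable {Γ : Type*} [Group Γ] {J : Type*} [AddCommGroup J] [DistribMulAction Γ J]
  {V : AddSubgroup J} {R : Type*} [CommRing R] [Module R V] {tr : Γ → R} {χ : Γ → ℤ}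
  {M : Type*} [AddCommGroup M] [DistribMulAction Γ M]

namespace IsTraceRing

section Dict

variable (H : IsTraceRing V R tr χ) (U : AddSubgroup M) (hU : ∀ (g : Γ), ∀ v ∈ U, g • v ∈ U)
  (f : M →+ J) (hf : ∀ (g : Γ) v, f (g • v) = g • f v) (hfV : ∀ v ∈ U, f v ∈ V)

include H in
/-- counting an `R`-submodule of `f U` on `U`. -/
theorem card_eq_of_iff (hi : ∀ v ∈ U, f v = 0 → v = 0) (P : Submodule R V) (Q : AddSubgroup M)
    (hQU : Q ≤ U) (hP : P ≤ H.mapSub U hU f hf hfV)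
    (hPQ : ∀ v (hv : v ∈ U), v ∈ Q ↔ (⟨f v, hfV v hv⟩ : V) ∈ P) : Nat.card P = Nat.card Q := by
  symm
  refine Nat.card_congr (Equiv.ofBijective
    (fun v : Q => (⟨⟨f v.1, hfV v.1 (hQU v.2)⟩, (hPQ v.1 (hQU v.2)).1 v.2⟩ : P)) ⟨?_, ?_⟩)
  · intro v w hvw
    have h1 : f v.1 = f w.1 := congrArg (fun x : P => ((x : V) : J)) hvw
    have h2 : v.1 - w.1 = 0 := hi _ (U.sub_mem (hQU v.2) (hQU w.2)) (by rw [map_sub, h1, sub_self])
    exact Subtype.ext (sub_eq_zero.1 h2)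
  · intro x
    obtain ⟨v, hv, hx⟩ := hP x.2
    have e : (⟨f v, hfV v hv⟩ : V) = x.1 := Subtype.ext hx
    refine ⟨⟨v, (hPQ v hv).2 (by rw [e]; exact x.2)⟩, ?_⟩
    exact Subtype.ext e

variable {t : ℕ} (τ : Fin t → Γ)

/-- the box of `f U`, as an `R`-submodule of `V`. -/
def bx (a : ℕ) : Submodule R V :=
  H.mapSub U hU f hf hfV ⊓ ⨅ i, torsionBy R V ((tr (τ i) - 2) ^ a)

variable (hχτ : ∀ i, ∀ x ∈ V, χ (τ i) • x = x)

include H hU hf hχτ in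
theorem z_pow_smul_eq_zero_iff (hi : ∀ v ∈ U, f v = 0 → v = 0) (i : Fin t) (n : ℕ) {v : M}
    (hv : v ∈ U) :
    (tr (τ i) - 2) ^ n • (⟨f v, hfV v hv⟩ : V) = 0 ↔ (zOp (τ i))^[n] v = 0 := by
  rw [← ZeroMemClass.coe_eq_zero, H.z_pow_smul (hχτ i), ← map_zOp_iterate f hf]
  exact ⟨fun h => hi _ (zOp_iterate_mem U hU _ _ hv) h, fun h => by rw [h, map_zero]⟩

theorem natCast_pow_smul_eq_zero_iff (hi : ∀ v ∈ U, f v = 0 → v = 0) (p n : ℕ) {v : M}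
    (hv : v ∈ U) : (p : R) ^ n • (⟨f v, hfV v hv⟩ : V) = 0 ↔ p ^ n • v = 0 := by
  rw [← ZeroMemClass.coe_eq_zero, ← Nat.cast_pow, natCast_smul, ← map_nsmul]
  exact ⟨fun h => hi _ (U.nsmul_mem hv _) h, fun h => by rw [h, map_zero]⟩

include hχτ in
theorem card_bx (hi : ∀ v ∈ U, f v = 0 → v = 0) (p a : ℕ) (hUa : ∀ v ∈ U, p ^ a • v = 0) :
    Nat.card ↥(H.bx U hU f hf hfV τ a) = Nat.card ↥(boxG p a τ U) := by
  refine H.card_eq_of_iff U hU f hf hfV hi _ _ (boxG_le τ U) inf_le_left fun v hv => ?_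
  rw [mem_boxG, bx, Submodule.mem_inf, Submodule.mem_iInf]
  simp only [mem_torsionBy_iff, H.z_pow_smul_eq_zero_iff U hU f hf hfV τ hχτ hi _ _ hv]
  exact ⟨fun h => ⟨⟨v, hv, rfl⟩, h.2.2⟩, fun h => ⟨hv, hUa v hv, h.2⟩⟩

include hχτ in
theorem card_soc_bx (hi : ∀ v ∈ U, f v = 0 → v = 0) (p a : ℕ) (ha : 1 ≤ a) :
    Nat.card ↥(H.bx U hU f hf hfV τ a ⊓
      (torsionBy R V (p : R) ⊓ ⨅ i, torsionBy R V (tr (τ i) - 2))) =
      Nat.card ↥(boxG p 1 τ U) := by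
  refine H.card_eq_of_iff U hU f hf hfV hi _ _ (boxG_le τ U) (inf_le_left.trans inf_le_left)
    fun v hv => ?_
  have e1 := fun i => H.z_pow_smul_eq_zero_iff U hU f hf hfV τ hχτ hi i 1 hv
  have e2 := natCast_pow_smul_eq_zero_iff (R := R) U f hfV hi p 1 hv
  have e3 := fun i => H.z_pow_smul_eq_zero_iff U hU f hf hfV τ hχτ hi i a hv
  simp only [pow_one] at e1 e2
  rw [mem_boxG, bx]
  simp only [Submodule.mem_inf, Submodule.mem_iInf, mem_torsionBy_iff, e1, e2, e3, pow_one]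
  constructor
  · rintro ⟨-, h2, h3⟩
    refine ⟨⟨⟨v, hv, rfl⟩, fun i => ?_⟩, h2, h3⟩
    obtain ⟨b, rfl⟩ : ∃ b, a = b + 1 := ⟨a - 1, by omega⟩
    rw [Function.iterate_succ_apply]
    have := h3 i
    rw [Function.iterate_one] at this
    rw [this, iterate_map_zero]
  · rintro ⟨-, h2, h3⟩
    exact ⟨hv, h2, h3⟩

end Dict

end IsTraceRing

section Main

variable [Finite V] {p a t : ℕ} [Fact p.Prime]

/-- the subgroup `β • Y` of `J`. -/
def imgG (β : R) (Y : Submodule R V) : AddSubgroup J :=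
  ((Y.map (LinearMap.lsmul R V β)).toAddSubgroup).map V.subtype

theorem mem_imgG {β : R} {Y : Submodule R V} {x : J} :
    x ∈ imgG β Y ↔ ∃ x₁ ∈ Y, ((β • x₁ : V) : J) = x := by
  simp only [imgG, AddSubgroup.mem_map, Submodule.mem_toAddSubgroup, Submodule.mem_map,
    LinearMap.lsmul_apply, AddSubgroup.subtype_apply]
  constructor
  · rintro ⟨_, ⟨x₁, h1, rfl⟩, rfl⟩
    exact ⟨x₁, h1, rfl⟩
  · rintro ⟨x₁, h1, rfl⟩
    exact ⟨_, ⟨x₁, h1, rfl⟩, rfl⟩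

theorem card_imgG (β : R) (Y : Submodule R V) :
    Nat.card ↥(imgG β Y) = Nat.card ↥(Y.map (LinearMap.lsmul R V β)) := by
  symm
  exact Nat.card_congr (((Y.map (LinearMap.lsmul R V β)).toAddSubgroup).equivMapOfInjective
    V.subtype V.subtype_injective).toEquiv

/-- **[RAISE-STEP]**, abstract. -/
theorem raise_step_abs (H : IsTraceRing V R tr χ) (ha : 1 ≤ a)
    (hcomm : ∀ (g : Γ) (s : R) (x : V),
      ((s • (⟨g • (x : J), H.stable g x x.2⟩ : V) : V) : J) = g • ((s • x : V) : J))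
    (τ : Fin t → Γ) (hχτ : ∀ i, ∀ x ∈ V, χ (τ i) • x = x)
    -- the lower level
    (U G : AddSubgroup M) (hU : ∀ (g : Γ), ∀ v ∈ U, g • v ∈ U) (hG : ∀ (g : Γ), ∀ v ∈ G, g • v ∈ G)
    (hUa : ∀ v ∈ U, p ^ a • v = 0) (hGU : G ≤ boxG p a τ U)
    (uA uE : M →+ J) (hA : ∀ (g : Γ) v, uA (g • v) = g • uA v)
    (hE : ∀ (g : Γ) v, uE (g • v) = g • uE v)
    (hAV : ∀ v ∈ U, uA v ∈ V) (hEV : ∀ v ∈ U, uE v ∈ V)
    (hAi : ∀ v ∈ U, uA v = 0 → v = 0) (hEi : ∀ v ∈ U, uE v = 0 → v = 0)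
    {d e : ℕ} (hcogen : Nat.card ↥(boxG p 1 τ U) ≤ p ^ d) (he : p ^ d < 2 ^ e)
    -- the upper level
    (U' : AddSubgroup J) (hU' : ∀ (g : Γ), ∀ x ∈ U', g • x ∈ U') (hU'V : U' ≤ V)
    (hU'a : ∀ x ∈ U', p ^ a • x = 0)
    {D : ℕ} (hcogen' : Nat.card ↥(boxG p 1 τ U') ≤ p ^ D)
    (hsize' : p ^ (D * a ^ (t + 1)) ≤ Nat.card ↥(boxG p a τ U'))
    -- the auxiliary point
    {κ : Type*} [Fintype κ] (u δ : κ → R) (hynil : ∀ k, IsNilpotent (u k - (p : R) * δ k))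
    (hgen : ∀ i, tr (τ i) - 2 ∈
      (H.mapSub G hG uA hA fun v hv => hAV v (hGU hv).1).annihilator ⊔
        Ideal.span (Set.range u) ⊔ Ideal.span {(p : R)})
    {f m : ℕ} (hbig : p ^ (d * f * (e * ((t + 1) * a + 1)) ^ Fintype.card κ) < Nat.card G)
    (β' : R) (N : ℤ) (hN : ¬ (p : ℤ) ^ (f + 1) ∣ N)
    (hβ' : ∀ v (hv : v ∈ G),
      (∀ k, (u k - (p : R) * δ k) • (⟨uA v, hAV v (hGU hv).1⟩ : V) = 0) →
        β' • (⟨uA v, hAV v (hGU hv).1⟩ : V) = N • (⟨uA v, hAV v (hGU hv).1⟩ : V))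
    (hemb : ∀ v (hv : v ∈ G),
      (∀ k, (u k - (p : R) * δ k) • (⟨uA v, hAV v (hGU hv).1⟩ : V) = 0) → uE v ∈ U')
    (hm : (t + 1) * m + (f + 1) ≤ a + 1) :
    ∃ G' : AddSubgroup J, (∀ (g : Γ), ∀ x ∈ G', g • x ∈ G') ∧ G' ≤ boxG p a τ U' ∧
      p ^ (m ^ (t + 1)) ≤ Nat.card G' ∧
      ∀ x ∈ G', ∃ x₁ : V, (x₁ : J) ∈ boxG p a τ U' ∧ ((β' • x₁ : V) : J) = x := by
  classical
  have hid : ∀ (g : Γ) (v : J), AddMonoidHom.id J (g • v) = g • AddMonoidHom.id J v :=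
    fun _ _ => rfl
  have hidV : ∀ v ∈ U', AddMonoidHom.id J v ∈ V := fun v hv => hU'V hv
  have hidi : ∀ v ∈ U', AddMonoidHom.id J v = 0 → v = 0 := fun _ _ h => h
  set z : Fin t → R := fun i => tr (τ i) - 2 with hz
  set Y : Submodule R V := H.bx U hU uA hA hAV τ a with hY
  set Y' : Submodule R V := H.bx U' hU' (AddMonoidHom.id J) hid hidV τ a with hY'
  set Gt : Submodule R V := H.mapSub G hG uA hA fun v hv => hAV v (hGU hv).1 with hGt
  have hGtY : Gt ≤ Y := by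
    rintro x ⟨v, hv, hx⟩
    have e : (⟨uA v, hAV v (hGU hv).1⟩ : V) = x := Subtype.ext hx
    refine ⟨⟨v, (hGU hv).1, hx⟩, ?_⟩
    simp only [SetLike.mem_coe, Submodule.mem_iInf, mem_torsionBy_iff]
    intro i
    rw [← e, H.z_pow_smul_eq_zero_iff U hU uA hA hAV τ hχτ hAi i a (hGU hv).1]
    exact (hGU hv).2.2 i
  have hcG : Nat.card Gt = Nat.card G :=
    H.card_eq_of_iff G hG uA hA (fun v hv => hAV v (hGU hv).1)
      (fun v hv => hAi v (hGU hv).1) Gt G le_rfl le_rfl fun v hv =>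
        ⟨fun h => ⟨v, h, rfl⟩, fun _ => hv⟩
  have hmemY' : ∀ x : V, x ∈ Y' ↔ (x : J) ∈ boxG p a τ U' := by
    intro x
    rw [hY', IsTraceRing.bx, Submodule.mem_inf, Submodule.mem_iInf, mem_boxG]
    simp only [mem_torsionBy_iff]
    constructor
    · rintro ⟨⟨v, hv, hx⟩, h2⟩
      have hx' : v = (x : J) := hx
      subst hx'
      refine ⟨hv, hU'a _ hv, fun i => ?_⟩
      rw [← H.z_pow_smul (hχτ i), h2 i]
      rfl
    · rintro ⟨h1, -, h3⟩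
      refine ⟨⟨x, h1, rfl⟩, fun i => ?_⟩
      rw [← ZeroMemClass.coe_eq_zero, H.z_pow_smul (hχτ i)]
      exact h3 i
  have hpaY : ∀ (U₀ : AddSubgroup J) , (∀ x ∈ U₀, p ^ a • x = 0) → ∀ x : V, (x : J) ∈ U₀ →
      (p : R) ^ a • x = 0 := by
    intro U₀ h x hx
    rw [← ZeroMemClass.coe_eq_zero, ← Nat.cast_pow, IsTraceRing.natCast_smul]
    exact h _ hx
  have key := step2S (A := R) (V := V) (V' := V) (p := p) (a := a) (r := t) (D := D) (d := d)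
    (e := e) (f := f) (m := m) ha z (fun k => u k - (p : R) * δ k) Y Gt hGtY ?_ ?_
    (by rw [hY, H.card_soc_bx U hU uA hA hAV τ hχτ hAi p a ha]; exact hcogen) he ?_ ?_
    (by rw [hcG]; exact hbig) β' N hN ?_ Y' ?_ ?_ ?_
    (by rw [hY', H.card_soc_bx U' hU' _ hid hidV τ hχτ hidi p a ha]; exact hcogen')
    (by rw [hY', H.card_bx U' hU' _ hid hidV τ hχτ hidi p a hU'a]; exact hsize') hm
  · refine ⟨imgG β' Y', ?_, ?_, by rw [card_imgG]; exact key, ?_⟩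
    · intro g x hx
      obtain ⟨x₁, h1, rfl⟩ := mem_imgG.1 hx
      refine mem_imgG.2 ⟨⟨g • (x₁ : J), H.stable g x₁ x₁.2⟩, ?_, hcomm g β' x₁⟩
      rw [hmemY'] at h1 ⊢
      refine ⟨hU' g _ h1.1, hU'a _ (hU' g _ h1.1), fun i => ?_⟩
      have h2 := hcomm g ((tr (τ i) - 2) ^ a) x₁
      rw [H.z_pow_smul (hχτ i), H.z_pow_smul (hχτ i), h1.2.2 i, smul_zero] at h2
      exact h2
    · intro x hx
      obtain ⟨x₁, h1, rfl⟩ := mem_imgG.1 hx
      exact (hmemY' _).1 (Y'.smul_mem β' h1)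
    · intro x hx
      obtain ⟨x₁, h1, rfl⟩ := mem_imgG.1 hx
      exact ⟨x₁, (hmemY' _).1 h1, rfl⟩
  · -- hpa
    rintro x ⟨⟨v, hv, hx⟩, -⟩
    have e : (⟨uA v, hAV v hv⟩ : V) = x := Subtype.ext hx
    rw [← e, IsTraceRing.natCast_pow_smul_eq_zero_iff U uA hAV hAi p a hv]
    exact hUa v hv
  · -- hza
    rintro i x ⟨-, h2⟩
    simp only [SetLike.mem_coe, Submodule.mem_iInf, mem_torsionBy_iff] at h2
    exact h2 i
  · -- hynil
    intro k
    obtain ⟨n, hn⟩ := hynil k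
    exact ⟨n, fun x _ => by rw [hn, zero_smul]⟩
  · -- hgen
    intro i
    exact hgen_of_mem Gt u δ (hgen i)
  · -- hβ'
    rintro x ⟨v, hv, hx⟩ hy
    have e : (⟨uA v, hAV v (hGU hv).1⟩ : V) = x := Subtype.ext hx
    rw [← e]
    exact hβ' v hv fun k => by rw [e]; exact hy k
  · -- hemb
    rintro x ⟨v, hv, hx⟩ hy
    have e : (⟨uA v, hAV v (hGU hv).1⟩ : V) = x := Subtype.ext hx
    have h1 : uE v ∈ U' := hemb v hv fun k => by rw [e]; exact hy k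
    refine ⟨⟨uE v, hEV v (hGU hv).1⟩, ?_, fun s => ?_⟩
    · rw [hmemY']
      refine ⟨h1, hU'a _ h1, fun i => ?_⟩
      show (zOp (τ i))^[a] (uE v) = 0
      rw [← map_zOp_iterate uE hE, (hGU hv).2.2 i, map_zero]
    · rw [← e]
      exact H.ann_iff G hG uE uA hE hA (fun v hv => hEV v (hGU hv).1)
        (fun v hv => hAV v (hGU hv).1) (fun v hv => hEi v (hGU hv).1)
        (fun v hv => hAi v (hGU hv).1) s hv
  · -- hpa'
    intro x hx
    exact hpaY U' hU'a x ((hmemY' x).1 hx).1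
  · -- hza'
    rintro i x ⟨-, h2⟩
    simp only [SetLike.mem_coe, Submodule.mem_iInf, mem_torsionBy_iff] at h2
    exact h2 i

/-- **[FINAL]**, abstract : a class of `G` of exact order `p^B'` killed by the `y_k`. -/
theorem final_abs (H : IsTraceRing V R tr χ) (ha : 1 ≤ a)
    (τ : Fin t → Γ) (hχτ : ∀ i, ∀ x ∈ V, χ (τ i) • x = x)
    (U G : AddSubgroup M) (hU : ∀ (g : Γ), ∀ v ∈ U, g • v ∈ U) (hG : ∀ (g : Γ), ∀ v ∈ G, g • v ∈ G)
    (hUa : ∀ v ∈ U, p ^ a • v = 0) (hGU : G ≤ boxG p a τ U)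
    (uA : M →+ J) (hA : ∀ (g : Γ) v, uA (g • v) = g • uA v)
    (hAV : ∀ v ∈ U, uA v ∈ V) (hAi : ∀ v ∈ U, uA v = 0 → v = 0)
    {d e : ℕ} (hcogen : Nat.card ↥(boxG p 1 τ U) ≤ p ^ d) (he : p ^ d < 2 ^ e)
    {κ : Type*} [Fintype κ] (u δ : κ → R) (hynil : ∀ k, IsNilpotent (u k - (p : R) * δ k))
    (hgen : ∀ i, tr (τ i) - 2 ∈
      (H.mapSub G hG uA hA fun v hv => hAV v (hGU hv).1).annihilator ⊔
        Ideal.span (Set.range u) ⊔ Ideal.span {(p : R)})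
    {B B' : ℕ} (hbig : p ^ (d * B * (e * ((t + 1) * a + 1)) ^ Fintype.card κ) < Nat.card G)
    (hB' : B' ≤ B + 1) :
    ∃ v, ∃ hv : v ∈ G, (∀ k, (u k - (p : R) * δ k) • (⟨uA v, hAV v (hGU hv).1⟩ : V) = 0) ∧
      addOrderOf v = p ^ B' := by
  classical
  set z : Fin t → R := fun i => tr (τ i) - 2 with hz
  set Y : Submodule R V := H.bx U hU uA hA hAV τ a with hY
  set Gt : Submodule R V := H.mapSub G hG uA hA fun v hv => hAV v (hGU hv).1 with hGt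
  have hGtY : Gt ≤ Y := by
    rintro x ⟨v, hv, hx⟩
    have e : (⟨uA v, hAV v (hGU hv).1⟩ : V) = x := Subtype.ext hx
    refine ⟨⟨v, (hGU hv).1, hx⟩, ?_⟩
    simp only [SetLike.mem_coe, Submodule.mem_iInf, mem_torsionBy_iff]
    intro i
    rw [← e, H.z_pow_smul_eq_zero_iff U hU uA hA hAV τ hχτ hAi i a (hGU hv).1]
    exact (hGU hv).2.2 i
  have hcG : Nat.card Gt = Nat.card G :=
    H.card_eq_of_iff G hG uA hA (fun v hv => hAV v (hGU hv).1)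
      (fun v hv => hAi v (hGU hv).1) Gt G le_rfl le_rfl fun v hv =>
        ⟨fun h => ⟨v, h, rfl⟩, fun _ => hv⟩
  obtain ⟨x, ⟨v, hv, hx⟩, hxy, hxo⟩ := final2S (A := R) (V := V) (p := p) (a := a) (r := t) (d := d)
    (e := e) (B := B) (B' := B') (Fact.out : p.Prime) z (fun k => u k - (p : R) * δ k) Y Gt hGtY
    (by
      rintro x ⟨⟨v, hv, hx⟩, -⟩
      have e : (⟨uA v, hAV v hv⟩ : V) = x := Subtype.ext hx
      rw [← e, IsTraceRing.natCast_pow_smul_eq_zero_iff U uA hAV hAi p a hv]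
      exact hUa v hv)
    (by
      rintro i x ⟨-, h2⟩
      simp only [SetLike.mem_coe, Submodule.mem_iInf, mem_torsionBy_iff] at h2
      exact h2 i)
    (by rw [hY, H.card_soc_bx U hU uA hA hAV τ hχτ hAi p a ha]; exact hcogen) he
    (fun k => by
      obtain ⟨n, hn⟩ := hynil k
      exact ⟨n, fun x _ => by rw [hn, zero_smul]⟩)
    (fun i => hgen_of_mem Gt u δ (hgen i)) (by rw [hcG]; exact hbig) hB'
  have e : (⟨uA v, hAV v (hGU hv).1⟩ : V) = x := Subtype.ext hx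
  refine ⟨v, hv, fun k => by rw [e]; exact hxy k, ?_⟩
  rw [← hxo, ← e]
  -- the order is preserved by the injective map `v ↦ uA v` on `G`
  let ψ : G →+ V :=
    { toFun := fun w => ⟨uA w.1, hAV w.1 (hGU w.2).1⟩
      map_zero' := Subtype.ext (map_zero uA)
      map_add' := fun w w' => Subtype.ext (map_add uA w.1 w'.1) }
  have hψ : Function.Injective ψ := by
    rw [injective_iff_map_eq_zero]
    intro w hw
    exact Subtype.ext (hAi w.1 (hGU w.2).1 (congrArg Subtype.val hw))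
  have h1 : addOrderOf (ψ ⟨v, hv⟩) = addOrderOf (⟨v, hv⟩ : G) := addOrderOf_injective ψ hψ _
  have h2 : addOrderOf ((⟨v, hv⟩ : G) : M) = addOrderOf (⟨v, hv⟩ : G) :=
    addOrderOf_injective G.subtype G.subtype_injective (⟨v, hv⟩ : G)
  exact h2.trans h1.symm

/-- **[BIG₀]**, abstract : the first state. -/
theorem big0_abs (H : IsTraceRing V R tr χ) (ha : 1 ≤ a)
    (hcomm : ∀ (g : Γ) (s : R) (x : V),
      ((s • (⟨g • (x : J), H.stable g x x.2⟩ : V) : V) : J) = g • ((s • x : V) : J))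
    (τ : Fin t → Γ) (hχτ : ∀ i, ∀ x ∈ V, χ (τ i) • x = x)
    (U' : AddSubgroup J) (hU' : ∀ (g : Γ), ∀ x ∈ U', g • x ∈ U') (hU'V : U' ≤ V)
    (hU'a : ∀ x ∈ U', p ^ a • x = 0)
    {D : ℕ} (hcogen' : Nat.card ↥(boxG p 1 τ U') ≤ p ^ D)
    (hsize' : p ^ (D * a ^ (t + 1)) ≤ Nat.card ↥(boxG p a τ U'))
    (β' : R) (x₀ : V) (hx₀ : (x₀ : J) ∈ boxG p 1 τ U') (hβ : β' • x₀ ≠ 0)
    {m : ℕ} (hm : (t + 1) * m ≤ a) :
    ∃ G' : AddSubgroup J, (∀ (g : Γ), ∀ x ∈ G', g • x ∈ G') ∧ G' ≤ boxG p a τ U' ∧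
      p ^ (m ^ (t + 1)) ≤ Nat.card G' ∧
      ∀ x ∈ G', ∃ x₁ : V, (x₁ : J) ∈ boxG p a τ U' ∧ ((β' • x₁ : V) : J) = x := by
  classical
  have hid : ∀ (g : Γ) (v : J), AddMonoidHom.id J (g • v) = g • AddMonoidHom.id J v :=
    fun _ _ => rfl
  have hidV : ∀ v ∈ U', AddMonoidHom.id J v ∈ V := fun v hv => hU'V hv
  have hidi : ∀ v ∈ U', AddMonoidHom.id J v = 0 → v = 0 := fun _ _ h => h
  set z : Fin t → R := fun i => tr (τ i) - 2 with hz
  set Y' : Submodule R V := H.bx U' hU' (AddMonoidHom.id J) hid hidV τ a with hY'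
  have hmemY' : ∀ x : V, x ∈ Y' ↔ (x : J) ∈ boxG p a τ U' := by
    intro x
    rw [hY', IsTraceRing.bx, Submodule.mem_inf, Submodule.mem_iInf, mem_boxG]
    simp only [mem_torsionBy_iff]
    constructor
    · rintro ⟨⟨v, hv, hx⟩, h2⟩
      have hx' : v = (x : J) := hx
      subst hx'
      refine ⟨hv, hU'a _ hv, fun i => ?_⟩
      rw [← H.z_pow_smul (hχτ i), h2 i]
      rfl
    · rintro ⟨h1, -, h3⟩
      refine ⟨⟨x, h1, rfl⟩, fun i => ?_⟩
      rw [← ZeroMemClass.coe_eq_zero, H.z_pow_smul (hχτ i)]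
      exact h3 i
  have hz0 : ∀ i, z i • x₀ = 0 := by
    intro i
    rw [← ZeroMemClass.coe_eq_zero, hz]
    show (((tr (τ i) - 2) • x₀ : V) : J) = 0
    rw [H.z_smul (hχτ i)]
    exact hx₀.2.2 i
  have hp0 : (p : R) • x₀ = 0 := by
    rw [← ZeroMemClass.coe_eq_zero, IsTraceRing.natCast_smul]
    simpa using hx₀.2.1
  have hx₀Y : x₀ ∈ Y' := by
    rw [hmemY']
    refine ⟨hx₀.1, hU'a _ hx₀.1, fun i => ?_⟩
    obtain ⟨b, rfl⟩ : ∃ b, a = b + 1 := ⟨a - 1, by omega⟩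
    rw [Function.iterate_succ_apply]
    have := hx₀.2.2 i
    rw [Function.iterate_one] at this
    rw [this, iterate_map_zero]
  have key := big0S (A := R) (V := V) (p := p) (a := a) (r := t) (D := D) (m := m) ha z Y'
    (by
      intro x hx
      rw [← ZeroMemClass.coe_eq_zero, ← Nat.cast_pow, IsTraceRing.natCast_smul]
      exact hU'a _ ((hmemY' x).1 hx).1)
    (by
      rintro i x ⟨-, h2⟩
      simp only [SetLike.mem_coe, Submodule.mem_iInf, mem_torsionBy_iff] at h2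
      exact h2 i)
    (by rw [hY', H.card_soc_bx U' hU' _ hid hidV τ hχτ hidi p a ha]; exact hcogen')
    (by rw [hY', H.card_bx U' hU' _ hid hidV τ hχτ hidi p a hU'a]; exact hsize')
    β' x₀ hx₀Y hp0 hz0 hβ hm
  refine ⟨imgG β' Y', ?_, ?_, by rw [card_imgG]; exact key, ?_⟩
  · intro g x hx
    obtain ⟨x₁, h1, rfl⟩ := mem_imgG.1 hx
    refine mem_imgG.2 ⟨⟨g • (x₁ : J), H.stable g x₁ x₁.2⟩, ?_, hcomm g β' x₁⟩
    rw [hmemY'] at h1 ⊢
    refine ⟨hU' g _ h1.1, hU'a _ (hU' g _ h1.1), fun i => ?_⟩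
    have h2 := hcomm g ((tr (τ i) - 2) ^ a) x₁
    rw [H.z_pow_smul (hχτ i), H.z_pow_smul (hχτ i), h1.2.2 i, smul_zero] at h2
    exact h2
  · intro x hx
    obtain ⟨x₁, h1, rfl⟩ := mem_imgG.1 hx
    exact (hmemY' _).1 (Y'.smul_mem β' h1)
  · intro x hx
    obtain ⟨x₁, h1, rfl⟩ := mem_imgG.1 hx
    exact ⟨x₁, (hmemY' _).1 h1, rfl⟩

end Main

end Fermat.Agent.ML.Lift
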