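import Mathlib
import Fermat.Agent.ML.Lift.StepAbs

/-!
# ML / LIFT / StageData : the module data of a raising stage, separated from the call of `step2`

`raise_step_abs = (P1) + step2`.  This file is (P1), in the TYPE form (`X := ↥(H.bx ..)`, `X' := ↥(H.bxU ..)`,
`Gt := H.gt .. : Submodule R X`), so that any other counting engine (`Hard.stepF_BB`) can be plugged in.

* `bx_pa`, `bx_za`, `card_soc_bx_type` : `hpa`, `hza`, `hcogen` for `X`.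
* `gt`, `card_gt`, `mem_gt`, `smul_gt_of_ann`, `ann_of_smul_gt`.
* `bxU`, `mem_bxU`, `exists_basis_bxU` : the upper box and its box basis.
* `exists_emb` : `hemb` for ALL `x : X` with `c • x = 0`.
* `out_state` : `p^(m^(t+1)) ≤ #range (lsmul β')` gives the output STATE.
* `exists_of_gt` : back from `Gt` to `G` (for the final stage).
-/

set_option autoImplicit false
set_option linter.unusedSectionVars false

namespace Fermat.Agent.ML.Lift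

open Submodule Fermat.Agent.ML Fermat.Agent.ML.Raise

variable {Γ : Type*} [Group Γ] {J : Type*} [AddCommGroup J] [DistribMulAction Γ J]
  {V : AddSubgroup J} {R : Type*} [CommRing R] [Module R V] {tr : Γ → R} {χ : Γ → ℤ}
  {M : Type*} [AddCommGroup M] [DistribMulAction Γ M]

namespace IsTraceRing

section Lower

variable (H : IsTraceRing V R tr χ) {p a t : ℕ} (τ : Fin t → Γ)
  (hχτ : ∀ i, ∀ x ∈ V, χ (τ i) • x = x)
  (U G : AddSubgroup M) (hU : ∀ (g : Γ), ∀ v ∈ U, g • v ∈ U) (hG : ∀ (g : Γ), ∀ v ∈ G, g • v ∈ G)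
  (hUa : ∀ v ∈ U, p ^ a • v = 0) (hGU : G ≤ boxG p a τ U)
  (uA : M →+ J) (hA : ∀ (g : Γ) v, uA (g • v) = g • uA v)
  (hAV : ∀ v ∈ U, uA v ∈ V) (hAi : ∀ v ∈ U, uA v = 0 → v = 0)

include hUa hAi in
theorem bx_pa (x : ↥(H.bx U hU uA hA hAV τ a)) : (p : R) ^ a • x = 0 := by
  obtain ⟨x, ⟨v, hv, hx⟩, -⟩ := x
  refine Subtype.ext ?_
  have e : (⟨uA v, hAV v hv⟩ : V) = x := Subtype.ext hx
  show (p : R) ^ a • x = 0
  rw [← e, natCast_pow_smul_eq_zero_iff U uA hAV hAi p a hv]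
  exact hUa v hv

theorem bx_za (i : Fin t) (x : ↥(H.bx U hU uA hA hAV τ a)) : (tr (τ i) - 2) ^ a • x = 0 := by
  obtain ⟨x, -, h2⟩ := x
  refine Subtype.ext ?_
  simp only [SetLike.mem_coe, Submodule.mem_iInf, mem_torsionBy_iff] at h2
  exact h2 i

include hχτ hAi in
theorem card_soc_bx_type (ha : 1 ≤ a) :
    Nat.card ↥(torsionBy R ↥(H.bx U hU uA hA hAV τ a) (p : R) ⊓
      ⨅ i, torsionBy R ↥(H.bx U hU uA hA hAV τ a) (tr (τ i) - 2)) =
      Nat.card ↥(boxG p 1 τ U) := by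
  rw [card_soc_subtype, H.card_soc_bx U hU uA hA hAV τ hχτ hAi p a ha]

include hχτ hAi in
theorem mapSub_le_bx :
    H.mapSub G hG uA hA (fun v hv => hAV v (hGU hv).1) ≤ H.bx U hU uA hA hAV τ a := by
  rintro x ⟨v, hv, hx⟩
  have e : (⟨uA v, hAV v (hGU hv).1⟩ : V) = x := Subtype.ext hx
  refine ⟨⟨v, (hGU hv).1, hx⟩, ?_⟩
  simp only [SetLike.mem_coe, Submodule.mem_iInf, mem_torsionBy_iff]
  intro i
  rw [← e, H.z_pow_smul_eq_zero_iff U hU uA hA hAV τ hχτ hAi i a (hGU hv).1]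
  exact (hGU hv).2.2 i

include hAi in
theorem card_mapSub :
    Nat.card ↥(H.mapSub G hG uA hA (fun v hv => hAV v (hGU hv).1)) = Nat.card G :=
  H.card_eq_of_iff G hG uA hA (fun v hv => hAV v (hGU hv).1)
    (fun v hv => hAi v (hGU hv).1) _ G le_rfl le_rfl fun v hv =>
      ⟨fun h => ⟨v, h, rfl⟩, fun _ => hv⟩

/-- `uA G` as a submodule of the TYPE `X = ↥(bx U)`. -/
def gt : Submodule R ↥(H.bx U hU uA hA hAV τ a) :=
  (H.mapSub G hG uA hA (fun v hv => hAV v (hGU hv).1)).comap (H.bx U hU uA hA hAV τ a).subtype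

theorem mem_gt {x : ↥(H.bx U hU uA hA hAV τ a)} :
    x ∈ H.gt τ U G hU hG hGU uA hA hAV ↔ ∃ v ∈ G, uA v = ((x : V) : J) := Iff.rfl

include hχτ hAi in
theorem card_gt : Nat.card ↥(H.gt τ U G hU hG hGU uA hA hAV) = Nat.card G := by
  rw [gt, card_comap_subtype,
    inf_eq_right.2 (H.mapSub_le_bx τ hχτ U G hU hG hGU uA hA hAV hAi),
    H.card_mapSub τ U G hG hGU uA hA hAV hAi]

theorem smul_gt_of_ann {s : R}
    (hs : s ∈ (H.mapSub G hG uA hA (fun v hv => hAV v (hGU hv).1)).annihilator)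
    (x : ↥(H.bx U hU uA hA hAV τ a)) (hx : x ∈ H.gt τ U G hU hG hGU uA hA hAV) : s • x = 0 :=
  Subtype.ext ((Submodule.mem_annihilator.1 hs) x.1 hx)

include hχτ hAi in
theorem ann_of_smul_gt {s : R}
    (hs : ∀ x ∈ H.gt τ U G hU hG hGU uA hA hAV, s • x = 0) :
    s ∈ (H.mapSub G hG uA hA (fun v hv => hAV v (hGU hv).1)).annihilator := by
  rw [Submodule.mem_annihilator]
  intro x hx
  exact congrArg Subtype.val
    (hs ⟨x, H.mapSub_le_bx τ hχτ U G hU hG hGU uA hA hAV hAi hx⟩ hx)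

include hχτ hAi in
theorem annihilator_gt : (H.gt τ U G hU hG hGU uA hA hAV).annihilator =
    (H.mapSub G hG uA hA (fun v hv => hAV v (hGU hv).1)).annihilator := by
  ext s
  constructor
  · intro hs
    exact H.ann_of_smul_gt τ hχτ U G hU hG hGU uA hA hAV hAi
      fun x hx => (Submodule.mem_annihilator.1 hs) x hx
  · intro hs
    rw [Submodule.mem_annihilator]
    exact fun x hx => H.smul_gt_of_ann τ U G hU hG hGU uA hA hAV hs x hx

/-- every element of `X` is `uA v`, `v` in the Galois box. -/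
theorem exists_of_bx (x : ↥(H.bx U hU uA hA hAV τ a)) (hχτ : ∀ i, ∀ x ∈ V, χ (τ i) • x = x)
    (hUa : ∀ v ∈ U, p ^ a • v = 0) (hAi : ∀ v ∈ U, uA v = 0 → v = 0) :
    ∃ v, ∃ hv : v ∈ boxG p a τ U, (⟨uA v, hAV v hv.1⟩ : V) = (x : V) := by
  obtain ⟨x, ⟨v, hv, hx⟩, h2⟩ := x
  have e : (⟨uA v, hAV v hv⟩ : V) = x := Subtype.ext hx
  simp only [SetLike.mem_coe, Submodule.mem_iInf, mem_torsionBy_iff] at h2
  refine ⟨v, ⟨hv, hUa v hv, fun i => ?_⟩, e⟩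
  rw [← H.z_pow_smul_eq_zero_iff U hU uA hA hAV τ hχτ hAi i a hv, e]
  exact h2 i

/-- back from `Gt` to `G`. -/
theorem exists_of_gt (x : ↥(H.bx U hU uA hA hAV τ a))
    (hx : x ∈ H.gt τ U G hU hG hGU uA hA hAV) :
    ∃ v, ∃ hv : v ∈ G, (⟨uA v, hAV v (hGU hv).1⟩ : V) = (x : V) := by
  obtain ⟨v, hv, h⟩ := hx
  exact ⟨v, hv, Subtype.ext h⟩

end Lower

section Upper

variable (H : IsTraceRing V R tr χ) {p a t : ℕ} (τ : Fin t → Γ)
  (hχτ : ∀ i, ∀ x ∈ V, χ (τ i) • x = x)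
  (U' : AddSubgroup J) (hU' : ∀ (g : Γ), ∀ x ∈ U', g • x ∈ U') (hU'V : U' ≤ V)
  (hU'a : ∀ x ∈ U', p ^ a • x = 0)

/-- the box of `U' ≤ V`, as an `R`-submodule of `V`. -/
def bxU (a : ℕ) : Submodule R V :=
  H.bx U' hU' (AddMonoidHom.id J) (fun _ _ => rfl) (fun _ hv => hU'V hv) τ a

include hχτ hU'a in
theorem mem_bxU (x : V) : x ∈ H.bxU τ U' hU' hU'V a ↔ (x : J) ∈ boxG p a τ U' := by
  rw [bxU, bx, Submodule.mem_inf, Submodule.mem_iInf, mem_boxG]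
  simp only [mem_torsionBy_iff]
  constructor
  · rintro ⟨⟨v, hv, hx⟩, h2⟩
    have hx' : v = (x : J) := hx
    subst hx'
    refine ⟨hv, hU'a _ hv, fun i => ?_⟩
    rw [← H.z_pow_smul (hχτ i), h2 i]
    rfl
  · rintro ⟨h1, -, h3⟩
    refine ⟨⟨x, h1, rfl⟩, fun i => ?_⟩
    rw [← ZeroMemClass.coe_eq_zero, H.z_pow_smul (hχτ i)]
    exact h3 i

include hχτ hU'a in
/-- the box basis of the upper box, from (COGEN) and (SIZE) in Galois form. -/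
theorem exists_basis_bxU [Finite V] [Fact p.Prime] (ha : 1 ≤ a) {D : ℕ}
    (hcogen' : Nat.card ↥(boxG p 1 τ U') ≤ p ^ D)
    (hsize' : p ^ (D * a ^ (t + 1)) ≤ Nat.card ↥(boxG p a τ U')) :
    ∃ e' : Fin D → ↥(H.bxU τ U' hU' hU'V a), IsBoxBasis p a (fun i => tr (τ i) - 2) e' := by
  have hidi : ∀ v ∈ U', AddMonoidHom.id J v = 0 → v = 0 := fun _ _ h => h
  refine exists_isBoxBasis_sub p ha (fun i => tr (τ i) - 2) (H.bxU τ U' hU' hU'V a) ?_ ?_ ?_ ?_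
  · intro x hx
    rw [← ZeroMemClass.coe_eq_zero, ← Nat.cast_pow, natCast_smul]
    exact hU'a _ ((H.mem_bxU τ hχτ U' hU' hU'V hU'a x).1 hx).1
  · rintro i x ⟨-, h2⟩
    simp only [SetLike.mem_coe, Submodule.mem_iInf, mem_torsionBy_iff] at h2
    exact h2 i
  · rw [bxU, H.card_soc_bx U' hU' _ _ _ τ hχτ hidi p a ha]
    exact hcogen'
  · rw [bxU, H.card_bx U' hU' _ _ _ τ hχτ hidi p a hU'a]
    exact hsize'

include hχτ hU'a in
/-- **the output STATE.** -/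
theorem out_state [Finite V]
    (hcomm : ∀ (g : Γ) (s : R) (x : V),
      ((s • (⟨g • (x : J), H.stable g x x.2⟩ : V) : V) : J) = g • ((s • x : V) : J))
    (β' : R) {n : ℕ}
    (key : n ≤ Nat.card (LinearMap.range (LinearMap.lsmul R ↥(H.bxU τ U' hU' hU'V a) β'))) :
    ∃ G' : AddSubgroup J, (∀ (g : Γ), ∀ x ∈ G', g • x ∈ G') ∧ G' ≤ boxG p a τ U' ∧
      n ≤ Nat.card G' ∧
      ∀ x ∈ G', ∃ x₁ : V, (x₁ : J) ∈ boxG p a τ U' ∧ ((β' • x₁ : V) : J) = x := by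
  have hmemY' := H.mem_bxU τ hχτ U' hU' hU'V hU'a
  rw [card_range_lsmul] at key
  refine ⟨imgG β' (H.bxU τ U' hU' hU'V a), ?_, ?_, by rw [card_imgG]; exact key, ?_⟩
  · intro g x hx
    obtain ⟨x₁, h1, rfl⟩ := mem_imgG.1 hx
    refine mem_imgG.2 ⟨⟨g • (x₁ : J), H.stable g x₁ x₁.2⟩, ?_, hcomm g β' x₁⟩
    rw [hmemY'] at h1 ⊢
    refine ⟨hU' g _ h1.1, hU'a _ (hU' g _ h1.1), fun i => ?_⟩
    have h2 := hcomm g ((tr (τ i) - 2) ^ a) x₁
    rw [H.z_pow_smul (hχτ i), H.z_pow_smul (hχτ i), h1.2.2 i, smul_zero] at h2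
    exact h2
  · intro x hx
    obtain ⟨x₁, h1, rfl⟩ := mem_imgG.1 hx
    exact (hmemY' _).1 ((H.bxU τ U' hU' hU'V a).smul_mem β' h1)
  · intro x hx
    obtain ⟨x₁, h1, rfl⟩ := mem_imgG.1 hx
    exact ⟨x₁, (hmemY' _).1 h1, rfl⟩

variable (U : AddSubgroup M) (hU : ∀ (g : Γ), ∀ v ∈ U, g • v ∈ U)
  (hUa : ∀ v ∈ U, p ^ a • v = 0)
  (uA uE : M →+ J) (hA : ∀ (g : Γ) v, uA (g • v) = g • uA v)
  (hE : ∀ (g : Γ) v, uE (g • v) = g • uE v)
  (hAV : ∀ v ∈ U, uA v ∈ V) (hEV : ∀ v ∈ U, uE v ∈ V)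
  (hAi : ∀ v ∈ U, uA v = 0 → v = 0) (hEi : ∀ v ∈ U, uE v = 0 → v = 0)

include hχτ hU'a hUa hE hEV hAi hEi in
/-- **`hemb`** for all `x : X` satisfying a predicate `P` (e.g. `c • x = 0`). -/
theorem exists_emb (P : V → Prop)
    (hemb : ∀ v (hv : v ∈ boxG p a τ U), P ⟨uA v, hAV v hv.1⟩ → uE v ∈ U')
    (x : ↥(H.bx U hU uA hA hAV τ a)) (hx : P (x : V)) :
    ∃ x' : ↥(H.bxU τ U' hU' hU'V a), ∀ s : R, s • x' = 0 ↔ s • x = 0 := by
  obtain ⟨v, hv, e⟩ := H.exists_of_bx τ U hU uA hA hAV x hχτ hUa hAi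
  have h1 : uE v ∈ U' := hemb v hv (by rw [e]; exact hx)
  refine ⟨⟨⟨uE v, hEV v hv.1⟩, ?_⟩, fun s => ?_⟩
  · rw [H.mem_bxU τ hχτ U' hU' hU'V hU'a]
    refine ⟨h1, hU'a _ h1, fun i => ?_⟩
    show (zOp (τ i))^[a] (uE v) = 0
    rw [← map_zOp_iterate uE hE, hv.2.2 i, map_zero]
  · rw [← Submodule.coe_eq_zero, ← Submodule.coe_eq_zero (x := s • x), Submodule.coe_smul,
      Submodule.coe_smul, ← e]
    exact H.ann_iff U hU uE uA hE hA hEV hAV hEi hAi s hv.1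

end Upper

end IsTraceRing

end Fermat.Agent.ML.Lift
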