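import Fermat.Agent.ML.Raise.Hemb
import Fermat.Agent.ML.Gen.Loc
import Fermat.Agent.ML.Main.Cell
import Fermat.Agent.ML.Lift.StageData

/-!
# ML / LIFT / OfRhoK : `Rho.IsRhoK` gives an `IsTraceRing`;  dictionary `ML.zOp` / `ML.InBox` (Cell.lean) ↔ `Lift.zOp` / `Lift.boxG`

* `IsRhoK.traceRing : IsTraceRing X R (fun g => (ρ g).trace) (fun g => ((chiM m g).val : ℤ))`.
* `IsRhoK.hcomm` : the hypothesis `hcomm` of `raise_step_abs` / `out_state`.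
* `IsRhoK.hchi` : the hypothesis `hχτ` from `chiM m τ = 1`.
* `zOp_eq`, `zOp_iterate_eq` : the two `zOp` agree.
* `mem_boxG_of_inBox` : `x ∈ U`, `InBox p qv a x`, `τ i ∈ I_(A i)`, `A i ∣ qv i` ⟹ `x ∈ boxG p a τ U`.
-/

set_option autoImplicit false
set_option linter.unusedSectionVars false

noncomputable section

open ModularCurve

namespace Fermat.Agent.ML.Lift

open Fermat.Agent.GAL Fermat.Agent.GAL.PC Fermat.Agent.RIB Fermat.Agent.RIB.Rho Fermat.Agent.ML.Rho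

local notation "Qbar" => AlgebraicClosure ℚ
local notation "GQ" => (AlgebraicClosure ℚ ≃ₐ[ℚ] AlgebraicClosure ℚ)
local notation "M₂" => Matrix (Fin 2) (Fin 2)

section Rho

variable {L m : ℕ} [NeZero L] [NeZero m] {X : AddSubgroup (JZero L)} {rE : GQ →* M₂ (ZMod m)}
  {R : Type} [CommRing R] [Algebra (ZMod m) R] [Module R ↥X] {πE : R →ₐ[ZMod m] ZMod m}
  {ρ : GQ →* M₂ R} {Φ : M₂ R →ₐ[R] Module.End R ↥X}

theorem IsRhoK.stable (H : Rho.IsRhoK L m X rE πE ρ Φ) (g : GQ) (x : JZero L) (hx : x ∈ X) :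
    g • x ∈ X := by
  have := H.act g ⟨x, hx⟩
  rw [← this]
  exact (Φ (ρ g) ⟨x, hx⟩).2

/-- **`IsRhoK ⟹ IsTraceRing`.** -/
theorem IsRhoK.traceRing (H : Rho.IsRhoK L m X rE πE ρ Φ) :
    IsTraceRing X R (fun g => (ρ g).trace) (fun g => ((chiM m g).val : ℤ)) where
  stable := IsRhoK.stable H
  gen := adjoin_int_eq_top_of_zmod H.tr
  spec := fun g x => by
    rw [Raise.trace_smul_coe H, natCast_zsmul]

theorem IsRhoK.hcomm (H : Rho.IsRhoK L m X rE πE ρ Φ) (g : GQ) (s : R) (x : ↥X) :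
    ((s • (⟨g • (x : JZero L), (IsRhoK.traceRing H).stable g x x.2⟩ : ↥X) : ↥X) : JZero L) =
      g • ((s • x : ↥X) : JZero L) :=
  H.comm g s x _ rfl

theorem IsRhoK.hchi (_H : Rho.IsRhoK L m X rE πE ρ Φ) (hm1 : 1 < m) {τ : GQ}
    (hτ : chiM m τ = 1) (x : JZero L) (_hx : x ∈ X) : ((chiM m τ).val : ℤ) • x = x := by
  have : Fact (1 < m) := ⟨hm1⟩
  rw [hτ, ZMod.val_one, Nat.cast_one, one_smul]

end Rho

section Dict

variable {Y : Type*} [AddCommGroup Y] [DistribMulAction GQ Y]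

theorem zOp_eq (τ : GQ) : (ML.zOp τ : Y → Y) = ⇑(Lift.zOp τ : Y →+ Y) := rfl

theorem zOp_iterate_eq (τ : GQ) (n : ℕ) (x : Y) :
    (ML.zOp τ)^[n] x = (Lift.zOp τ : Y →+ Y)^[n] x := rfl

theorem mem_boxG_of_inBox {p a t : ℕ} {qv : Fin t → Nat.Primes} {U : AddSubgroup Y}
    {A : Fin t → ValuationSubring Qbar} (hA : ∀ i, (A i).LiesOverPrime ((qv i : Nat.Primes) : ℕ))
    {τ : Fin t → GQ} (hτ : ∀ i, τ i ∈ (A i).inertiaSubgroupIn ℚ) {x : Y} (hx : x ∈ U)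
    (hb : InBox p qv a x) : x ∈ boxG p a τ U :=
  ⟨hx, hb.1, fun i => hb.2 i (A i) (hA i) (τ i) (hτ i)⟩

end Dict

end Fermat.Agent.ML.Lift
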