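/-
ML / LIFT / NumS : the NUMERICS of the SOFT stage in the frame of `ML/Main/Cell.lean`   ([NUM-S] of the blueprint v2).

`Frm` with `F₀ := f`, `C₀ := d f (e (t+2) + 1)^t`  ⟹  `ha`, `hm`, `hbig` of `Lift.raise_step_abs`  (`k = #κ ≤ t` generators);
the same constants with `f := B`                   ⟹  `ha`, `hbig` of `Lift.final_abs`, `fin_abs`, `fin_abs'`;
`N ≠ 0`                                            ⟹  `hN : ¬ p^(f+1) ∣ N` with `f := |N|` (and: products, explicit factors `p^j`).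
-/
import Fermat.Agent.ML.Main.Cell

set_option autoImplicit false

namespace Fermat.Agent.ML.Lift

/-- the constant of the soft count : `(e ((t+1) a + 1))^k ≤ numS e t * (a+1)^t` for `k ≤ t`. -/
def numS (e t : ℕ) : ℕ := (e * (t + 2) + 1) ^ t

theorem numS_mono {e e' : ℕ} (t : ℕ) (he : e ≤ e') : numS e t ≤ numS e' t :=
  Nat.pow_le_pow_left (by gcongr) t

theorem numS_pos (e t : ℕ) : 0 < numS e t := pow_pos (Nat.succ_pos _) t

/-- `(e ((t+1) a + 1))^k ≤ numS e t (a+1)^t`, `k ≤ t`  (no hypothesis on `e`). -/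
theorem pow_le_numS {k t : ℕ} (hk : k ≤ t) (e a : ℕ) :
    (e * ((t + 1) * a + 1)) ^ k ≤ numS e t * (a + 1) ^ t := by
  have h1 : e * ((t + 1) * a + 1) + 1 ≤ (e * (t + 2) + 1) * (a + 1) := by
    nlinarith [Nat.zero_le (e * a), Nat.zero_le (e * t), Nat.zero_le a, Nat.zero_le e]
  calc (e * ((t + 1) * a + 1)) ^ k
      ≤ (e * ((t + 1) * a + 1) + 1) ^ k := Nat.pow_le_pow_left (Nat.le_succ _) k
    _ ≤ (e * ((t + 1) * a + 1) + 1) ^ t := Nat.pow_le_pow_right (Nat.succ_pos _) hk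
    _ ≤ ((e * (t + 2) + 1) * (a + 1)) ^ t := Nat.pow_le_pow_left h1 t
    _ = numS e t * (a + 1) ^ t := by rw [numS, mul_pow]

/-- the exponent of `hbig` is `< m^(t+1)`. -/
theorem expoS_lt {k t : ℕ} (hk : k ≤ t) {x e a m C₀ : ℕ} (hC₀ : x * numS e t ≤ C₀)
    (hC : C₀ * (a + 1) ^ t < m ^ (t + 1)) :
    x * (e * ((t + 1) * a + 1)) ^ k < m ^ (t + 1) := by
  refine lt_of_le_of_lt ?_ hC
  calc x * (e * ((t + 1) * a + 1)) ^ k
      ≤ x * (numS e t * (a + 1) ^ t) := Nat.mul_le_mul_left _ (pow_le_numS hk e a)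
    _ = (x * numS e t) * (a + 1) ^ t := by ring
    _ ≤ C₀ * (a + 1) ^ t := Nat.mul_le_mul_right _ hC₀

/-- **`hbig`**, pure numbers. -/
theorem hbigS_of {p : ℕ} (hp : 1 < p) {k t : ℕ} (hk : k ≤ t) {x e a m C₀ N : ℕ}
    (hC₀ : x * numS e t ≤ C₀) (hC : C₀ * (a + 1) ^ t < m ^ (t + 1))
    (hN : p ^ (m ^ (t + 1)) ≤ N) :
    p ^ (x * (e * ((t + 1) * a + 1)) ^ k) < N :=
  lt_of_lt_of_le (Nat.pow_lt_pow_right hp (expoS_lt hk hC₀ hC)) hN

/-! ### the valuation of the integer `N` (value of the multiplier at the auxiliary point) -/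

/-- `hN` with `f := |N|`. -/
theorem not_pow_dvd_of_ne_zero {p : ℕ} (hp : 1 < p) {N : ℤ} (hN : N ≠ 0) :
    ¬ (p : ℤ) ^ (N.natAbs + 1) ∣ N := by
  intro h
  have h1 : p ^ (N.natAbs + 1) ∣ N.natAbs := by
    have := Int.natAbs_dvd_natAbs.2 h
    rwa [Int.natAbs_pow, Int.natAbs_natCast] at this
  have h2 := Nat.le_of_dvd (Int.natAbs_pos.2 hN) h1
  have h3 : N.natAbs + 1 < p ^ (N.natAbs + 1) := Nat.lt_pow_self hp
  omega

/-- monotonicity of `hN` in `f`. -/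
theorem not_pow_dvd_mono {p : ℕ} {N : ℤ} {f f' : ℕ} (h : ¬ (p : ℤ) ^ (f + 1) ∣ N) (hf : f ≤ f') :
    ¬ (p : ℤ) ^ (f' + 1) ∣ N :=
  fun h' => h ((pow_dvd_pow _ (by omega)).trans h')

/-- `hN` for a product : the exponents add. -/
theorem not_pow_dvd_mul {p : ℕ} (hp : p.Prime) {N N' : ℤ} {f f' : ℕ}
    (h : ¬ (p : ℤ) ^ (f + 1) ∣ N) (h' : ¬ (p : ℤ) ^ (f' + 1) ∣ N') :
    ¬ (p : ℤ) ^ (f + f' + 1) ∣ N * N' := by
  have hpp : Prime (p : ℤ) := Nat.prime_iff_prime_int.1 hp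
  rw [← emultiplicity_lt_iff_not_dvd] at h h' ⊢
  rw [emultiplicity_mul hpp]
  have h1 : emultiplicity (p : ℤ) N ≤ f := by
    rw [Nat.cast_add, Nat.cast_one] at h
    exact Order.le_of_lt_add_one h
  have h2 : emultiplicity (p : ℤ) N' ≤ f' := by
    rw [Nat.cast_add, Nat.cast_one] at h'
    exact Order.le_of_lt_add_one h'
  calc emultiplicity (p : ℤ) N + emultiplicity (p : ℤ) N' ≤ (f : ℕ∞) + f' := add_le_add h1 h2
    _ < ((f + f' + 1 : ℕ) : ℕ∞) := by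
      rw [← Nat.cast_add]
      exact_mod_cast Nat.lt_succ_self _

/-- `hN` for `p^j * N`. -/
theorem not_pow_dvd_pow_mul {p : ℕ} (hp : p.Prime) (j : ℕ) {N : ℤ} {f : ℕ}
    (h : ¬ (p : ℤ) ^ (f + 1) ∣ N) : ¬ (p : ℤ) ^ (j + f + 1) ∣ (p : ℤ) ^ j * N := by
  have hp0 : (p : ℤ) ^ j ≠ 0 := pow_ne_zero _ (by exact_mod_cast hp.ne_zero)
  intro hd
  rw [add_assoc, pow_add] at hd
  exact h ((mul_dvd_mul_iff_left hp0).1 hd)

/-- `hN` for a finite product of non zero integers : `f := |∏ N_i|`. -/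
theorem not_pow_dvd_prod_natAbs {p : ℕ} (hp : 1 < p) {ι : Type*} (s : Finset ι) (N : ι → ℤ)
    (hN : ∀ i ∈ s, N i ≠ 0) : ¬ (p : ℤ) ^ ((∏ i ∈ s, N i).natAbs + 1) ∣ ∏ i ∈ s, N i :=
  not_pow_dvd_of_ne_zero hp (Finset.prod_ne_zero_iff.2 hN)

section Frame

open Fermat.Agent.RIB Fermat.Agent.RIB.Rho

variable {p : ℕ} [Fact p.Prime] {hp2 : p ≠ 2} {T : Finset ℕ} {θ : ℕ → ℤ}
  {rbar0 : (AlgebraicClosure ℚ ≃ₐ[ℚ] AlgebraicClosure ℚ) →* Matrix (Fin 2) (Fin 2) (ZMod p)}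
  {t F C₀ a m n K : ℕ} {qv : Fin t → Nat.Primes}

theorem frm_one_le_m (h : Frm p hp2 T θ rbar0 t F C₀ a m n K qv) : 1 ≤ m := by
  rcases Nat.eq_zero_or_pos m with h0 | h0
  · have := h.hC
    rw [h0, zero_pow (Nat.succ_ne_zero t)] at this
    exact absurd this (Nat.not_lt_zero _)
  · exact h0

theorem frm_m_le_a (h : Frm p hp2 T θ rbar0 t F C₀ a m n K qv) : m ≤ a := by
  have := h.ha
  nlinarith [Nat.zero_le (t * m)]

theorem frm_one_le_a (h : Frm p hp2 T θ rbar0 t F C₀ a m n K qv) : 1 ≤ a :=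
  (frm_one_le_m h).trans (frm_m_le_a h)

theorem frm_F_le_a (h : Frm p hp2 T θ rbar0 t F C₀ a m n K qv) : F ≤ a := by
  have := h.ha
  omega

theorem frm_a_le_n (h : Frm p hp2 T θ rbar0 t F C₀ a m n K qv) : a ≤ n := by
  have := h.hn
  omega

/-- **numerics of `Lift.raise_step_abs`** : `ha`, `hm`, `hbig` VERBATIM (`k := Fintype.card κ`, `N := Nat.card G`). -/
theorem num_soft (h : Frm p hp2 T θ rbar0 t F C₀ a m n K qv) {k : ℕ} (hk : k ≤ t) {d e f : ℕ}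
    (hF : f ≤ F) (hC₀ : d * f * numS e t ≤ C₀) {N : ℕ} (hN : p ^ (m ^ (t + 1)) ≤ N) :
    1 ≤ a ∧ (t + 1) * m + (f + 1) ≤ a + 1 ∧
      p ^ (d * f * (e * ((t + 1) * a + 1)) ^ k) < N := by
  have ha := h.ha
  exact ⟨frm_one_le_a h, by omega, hbigS_of (Fact.out : p.Prime).one_lt hk hC₀ h.hC hN⟩

/-- **numerics of `Lift.final_abs` / `fin_abs` / `fin_abs'`** : `ha`, `haK`, `hbig`  (`B` = the wanted order `p^B`). -/
theorem num_soft_final (h : Frm p hp2 T θ rbar0 t F C₀ a m n K qv) {k : ℕ} (hk : k ≤ t)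
    {d e B : ℕ} (hC₀ : d * B * numS e t ≤ C₀) {N : ℕ} (hN : p ^ (m ^ (t + 1)) ≤ N) :
    1 ≤ a ∧ a ≤ K ∧ p ^ (d * B * (e * ((t + 1) * a + 1)) ^ k) < N :=
  ⟨frm_one_le_a h, h.hK, hbigS_of (Fact.out : p.Prime).one_lt hk hC₀ h.hC hN⟩

/-- the whole numerical package of a soft stage from ONE static integer `N₀ ≠ 0` (the value of `β'` at the auxiliary point) and the
static `d` (`#U[p, z] ≤ p^d`) :  `e := p^d`, `f := |N₀|`, `F₀ := f`, `C₀ := d f numS e t`. -/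
theorem num_soft_pkg (d : ℕ) {N₀ : ℤ} (hN₀ : N₀ ≠ 0)
    (h : Frm p hp2 T θ rbar0 t N₀.natAbs (d * N₀.natAbs * numS (p ^ d) t) a m n K qv) {k : ℕ}
    (hk : k ≤ t) {N : ℕ} (hN : p ^ (m ^ (t + 1)) ≤ N) :
    1 ≤ a ∧ p ^ d < 2 ^ (p ^ d) ∧ ¬ (p : ℤ) ^ (N₀.natAbs + 1) ∣ N₀ ∧
      (t + 1) * m + (N₀.natAbs + 1) ≤ a + 1 ∧
      p ^ (d * N₀.natAbs * (p ^ d * ((t + 1) * a + 1)) ^ k) < N := by
  obtain ⟨h1, h2, h3⟩ := num_soft h hk le_rfl le_rfl hN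
  exact ⟨h1, Nat.lt_two_pow_self, not_pow_dvd_of_ne_zero (Fact.out : p.Prime).one_lt hN₀, h2, h3⟩

end Frame

end Fermat.Agent.ML.Lift
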