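import Mathlib
import Fermat.Agent.ML.Count.Slice

/-!
# ML / LIFT / NewZ : **[NEW-Z]**  multiplying a big cell by `∏ z_i` keeps it big  (abstract, Mathlib + Count/Slice)

A cell `G` (ML/Main/Cell) is only known to lie in the `θ`-part; the raising step needs a cell inside the `Q`-NEW part.
`G₁ := (∏ z_i) G ≤ G` is `Q`-new (`Π_(l_i) (z_i x) = z_i Π_(l_i) x = 0`) and it is still big:

* `card_inf_torsionBy_le` : `#G[z_i] ≤ p^(d a^r)`   (slicing by the `r` operators `p`, `z_j` (`j ≠ i`));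
* `card_le_card_map_prod` : `#G ≤ #((∏ z_i) G) * p^(r d a^r)`;
* `big_map_prod` : `p^(c + r d a^r) < #G ⟹ p^c < #((∏ z_i) G)`   (= `hbig` of `Raise.step2` for `G₁`).

Conventions of `Raise.step2` : `X` a finite `A`-module killed by `p^a`, `z_i^a`, `#X[p,z] ≤ p^d`.
-/

set_option autoImplicit false

namespace Fermat.Agent.ML.Lift

open Submodule Fermat.Agent.ML

variable {A : Type*} [CommRing A] {X : Type*} [AddCommGroup X] [Module A X]

/-- `#G[z_i] ≤ p^(d a^r)`. -/
theorem card_inf_torsionBy_le [Finite X] {p a r d : ℕ} (z : Fin r → A)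
    (hpa : ∀ x : X, (p : A) ^ a • x = 0) (hza : ∀ (i : Fin r) (x : X), z i ^ a • x = 0)
    (hcogen : Nat.card ↥(torsionBy A X (p : A) ⊓ ⨅ i, torsionBy A X (z i)) ≤ p ^ d)
    (G : Submodule A X) (i : Fin r) :
    Nat.card ↥(G ⊓ torsionBy A X (z i)) ≤ p ^ (d * a ^ r) := by
  classical
  let y : Option (Fin r) → A := fun o => o.elim (p : A) z
  let I : Finset (Option (Fin r)) := Finset.univ.erase (some i)
  have hI : I.card = r := by
    rw [Finset.card_erase_of_mem (Finset.mem_univ _), Finset.card_univ, Fintype.card_option,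
      Fintype.card_fin, Nat.add_sub_cancel]
  have h := card_iInf_torsionBy_pow_le y (fun _ => a) I (G ⊓ torsionBy A X (z i))
  rw [Finset.prod_const, hI] at h
  have e1 : (G ⊓ torsionBy A X (z i)) ⊓ ⨅ o ∈ I, torsionBy A X (y o ^ a) =
      G ⊓ torsionBy A X (z i) := by
    refine inf_eq_left.2 fun x _ => ?_
    simp only [Submodule.mem_iInf, mem_torsionBy_iff]
    intro o _
    cases o with
    | none => exact hpa x
    | some j => exact hza j x
  have e2 : (G ⊓ torsionBy A X (z i)) ⊓ ⨅ o ∈ I, torsionBy A X (y o) ≤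
      torsionBy A X (p : A) ⊓ ⨅ j, torsionBy A X (z j) := by
    rintro x ⟨⟨-, hxi⟩, hx⟩
    simp only [SetLike.mem_coe, Submodule.mem_iInf, mem_torsionBy_iff] at hxi hx
    simp only [Submodule.mem_inf, Submodule.mem_iInf, mem_torsionBy_iff]
    refine ⟨hx none (Finset.mem_erase.2 ⟨by simp, Finset.mem_univ _⟩), fun j => ?_⟩
    by_cases hj : j = i
    · rw [hj]; exact hxi
    · exact hx (some j) (Finset.mem_erase.2 ⟨fun h => hj (Option.some.inj h), Finset.mem_univ _⟩)
  rw [e1] at h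
  calc _ ≤ _ := h
    _ ≤ (p ^ d) ^ (a ^ r) := Nat.pow_le_pow_left ((card_le_of_le e2).trans hcogen) _
    _ = _ := by rw [← pow_mul]

/-- `#G ≤ #((∏_{i ∈ I} z_i) G) * K^#I` if `#G[z_i] ≤ K`. -/
theorem card_le_card_map_prod_finset [Finite X] {ι : Type*} (z : ι → A) (G : Submodule A X) (K : ℕ)
    (hK : ∀ i, Nat.card ↥(G ⊓ torsionBy A X (z i)) ≤ K) (I : Finset ι) :
    Nat.card G ≤ Nat.card ↥(G.map (LinearMap.lsmul A X (∏ i ∈ I, z i))) * K ^ I.card := by
  classical
  induction I using Finset.induction_on with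
  | empty =>
    have : G.map (LinearMap.lsmul A X (∏ i ∈ (∅ : Finset ι), z i)) = G := by
      rw [Finset.prod_empty]
      have : LinearMap.lsmul A X (1 : A) = LinearMap.id := by ext x; simp
      rw [this, Submodule.map_id]
    rw [this]
    simp
  | insert j I hj ih =>
    rw [Finset.prod_insert hj, Finset.card_insert_of_notMem hj]
    set U := G.map (LinearMap.lsmul A X (∏ i ∈ I, z i)) with hU
    have hUG : U ≤ G := by
      rintro _ ⟨x, hx, rfl⟩
      exact G.smul_mem _ hx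
    have e : G.map (LinearMap.lsmul A X (z j * ∏ i ∈ I, z i)) =
        U.map (LinearMap.lsmul A X (z j)) := by
      rw [hU, ← Submodule.map_comp]
      congr 1
      ext x
      simp only [LinearMap.lsmul_apply, LinearMap.comp_apply, mul_smul]
    rw [e]
    have h1 := card_le_card_ker_mul (LinearMap.lsmul A X (z j)) U
      (U.map (LinearMap.lsmul A X (z j))) (fun x hx => ⟨x, hx, rfl⟩)
    have h2 : Nat.card ↥(U ⊓ LinearMap.ker (LinearMap.lsmul A X (z j))) ≤ K := by
      refine le_trans (card_le_of_le ?_) (hK j)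
      rintro x ⟨hx1, hx2⟩
      refine ⟨hUG hx1, ?_⟩
      rw [SetLike.mem_coe, mem_torsionBy_iff]
      exact hx2
    calc Nat.card G ≤ Nat.card U * K ^ I.card := ih
      _ ≤ (K * Nat.card ↥(U.map (LinearMap.lsmul A X (z j)))) * K ^ I.card :=
        Nat.mul_le_mul_right _ (h1.trans (Nat.mul_le_mul_right _ h2))
      _ = _ := by ring

/-- **[NEW-Z]** `#G ≤ #((∏ z_i) G) * p^(r d a^r)`. -/
theorem card_le_card_map_prod [Finite X] {p a r d : ℕ} (z : Fin r → A)
    (hpa : ∀ x : X, (p : A) ^ a • x = 0) (hza : ∀ (i : Fin r) (x : X), z i ^ a • x = 0)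
    (hcogen : Nat.card ↥(torsionBy A X (p : A) ⊓ ⨅ i, torsionBy A X (z i)) ≤ p ^ d)
    (G : Submodule A X) :
    Nat.card G ≤ Nat.card ↥(G.map (LinearMap.lsmul A X (∏ i, z i))) * p ^ (r * (d * a ^ r)) := by
  have h := card_le_card_map_prod_finset z G (p ^ (d * a ^ r))
    (card_inf_torsionBy_le z hpa hza hcogen G) Finset.univ
  rwa [Finset.card_univ, Fintype.card_fin, ← pow_mul, mul_comm (d * a ^ r) r] at h

/-- `G₁ = (∏ z_i) G` satisfies `hbig` as soon as `G` does with the exponent increased by `r d a^r`. -/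
theorem big_map_prod [Finite X] {p a r d c : ℕ} (z : Fin r → A)
    (hpa : ∀ x : X, (p : A) ^ a • x = 0) (hza : ∀ (i : Fin r) (x : X), z i ^ a • x = 0)
    (hcogen : Nat.card ↥(torsionBy A X (p : A) ⊓ ⨅ i, torsionBy A X (z i)) ≤ p ^ d)
    (G : Submodule A X) (hbig : p ^ (c + r * (d * a ^ r)) < Nat.card G) :
    p ^ c < Nat.card ↥(G.map (LinearMap.lsmul A X (∏ i, z i))) := by
  have h := card_le_card_map_prod z hpa hza hcogen G
  rw [pow_add] at hbig
  exact lt_of_mul_lt_mul_right (lt_of_lt_of_le hbig h) (Nat.zero_le _)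

/-- `(∏ z_i) G ≤ G`, and every element of it is a multiple of each `z_i`. -/
theorem map_prod_le {r : ℕ} (z : Fin r → A) (G : Submodule A X) :
    G.map (LinearMap.lsmul A X (∏ i, z i)) ≤ G := by
  rintro _ ⟨x, hx, rfl⟩
  exact G.smul_mem _ hx

theorem exists_eq_smul_of_mem_map_prod {r : ℕ} (z : Fin r → A) (G : Submodule A X) {x : X}
    (hx : x ∈ G.map (LinearMap.lsmul A X (∏ i, z i))) (i : Fin r) : ∃ y ∈ G, x = z i • y := by
  classical
  obtain ⟨w, hw, rfl⟩ := hx
  refine ⟨(∏ j ∈ Finset.univ.erase i, z j) • w, G.smul_mem _ hw, ?_⟩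
  rw [LinearMap.lsmul_apply, ← mul_smul, Finset.mul_prod_erase _ _ (Finset.mem_univ i)]

end Fermat.Agent.ML.Lift
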